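import Fermat.Agent.S56.GW.Dual.D6.Main
import Fermat.Agent.S56.GW.Dual.Global

/-!
# S56 / [GW-DUAL] Y2: every class of `ker(i_* : H²(Γ_b, R) → H²(Γ_b, F))` computes some
`y ∈ H¹(G_S, M')` (prefix `s56gdy_`)

`s56gdy_main : s56gd_Y2_stmt`.  For `z = δ¹ y'` (exactness of the lattice sequence at the level
`b`) take `y := infl y'`; the dictionary `s56gd_DictY` is the chain `s56gdc_chain` of [D6] for the
restriction to `D_q(b)` followed by an ARBITRARY `t ∈ Hom_{D_q(b)}(R, X_q(b))`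
(`s56gdy_local`), then `I.spec`.
-/

set_option autoImplicit false
set_option linter.unusedSectionVars false

open CategoryTheory groupCohomology ExtCitation

namespace Fermat.Agent.S56

open Fermat.Agent.S55

local notation "Qbar" => AlgebraicClosure ℚ
local notation "GQ" => (AlgebraicClosure ℚ ≃ₐ[ℚ] AlgebraicClosure ℚ)

noncomputable section

variable {p : ℕ} [Fact p.Prime] (M : Rep.{0} (ZMod p) GQ) [FiniteDimensional (ZMod p) M]
  (hsm : s56gw_Smooth M) {S : Finset Nat.Primes} (b : du_Lev S)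
  (hb : s56gd_K0 M hsm ≤ s56gd_Fld.ofLev b) (q : Nat.Primes)
  (t : tt_res (s56gd_D q (s56gd_Fld.ofLev b)) (s56gd_Rb M hsm S b hb) ⟶
    s56gd_X q (s56gd_Fld.ofLev b))

/-- The restriction map `Γ_b → Δ₀`. -/
abbrev s56gdy_rho : b.Γ →* (s56gd_K0 M hsm).Γ := s56gd_ra M hsm (s56gd_Fld.ofLev b) hb

theorem s56gdy_hrho (σ : GQ) : s56gdy_rho M hsm b hb (b.q σ) = s56gd_pi0 M hsm σ :=
  s56gd_ra_q M hsm (s56gd_Fld.ofLev b) hb σ

/-- Restriction to `D_q(b)` followed by `t`. -/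
abbrev s56gdy_mt : LvMor (LevelSys.trivial b.Γ) (tl_Act (s56gdc_Rb M hsm b (s56gdy_rho M hsm b hb)))
    (LevelSys.trivial ↥(il_D (q : ℕ) b.L)) (tl_Act (il_Xq q b.L)) :=
  s56gdc_mSub (il_D (q : ℕ) b.L) (A := s56gdc_Rb M hsm b (s56gdy_rho M hsm b hb))
    (X := il_Xq q b.L) t

/-- **The chain for an arbitrary `t`**: `(λ ∘ t) ⋆ δ¹(loc_q y') = infl (t_* res (δ¹ y'))`. -/
theorem s56gdy_star_eq
    (y' : lvH1 (LevelSys.trivial b.Γ) (tl_Act (s56gdc_Ab M hsm b (s56gdy_rho M hsm b hb)))) :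
    s56gd_star M hsm q (s56gd_lamt M hsm (s56gd_Fld.ofLev b) hb q t)
      (s56gd_d1 M hsm q
        ((s56gdc_morN' M hsm b (s56gdy_rho M hsm b hb) q (s56gdy_hrho M hsm b hb)).H1 y')) =
    (s56gd_QX q (s56gd_Fld.ofLev b)).mor.H2 ((s56gdy_mt M hsm b hb q t).H2
      (s56gdc_d1b M hsm b (s56gdy_rho M hsm b hb) y')) :=
  s56gdc_chain (s56gd_Lloc M hsm q) (s56gd_smooth_Fl M hsm q)
    (s56gdc_Eb M hsm b (s56gdy_rho M hsm b hb)) (sl_isSmooth_trivial _)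
    (s56gdc_t M hsm b (s56gdy_rho M hsm b hb) q (s56gdy_hrho M hsm b hb))
    (s56gd_QX q (s56gd_Fld.ofLev b)) (s56gdy_mt M hsm b hb q t)
    (s56gd_coef M hsm q (s56gd_lamt M hsm (s56gd_Fld.ofLev b) hb q t))
    (fun _ => rfl) (fun _ => rfl) y'

/-- The class `w_q = t_* res_{D_q} (δ¹ y') ∈ H²(D_q(b), X_q(b))`. -/
def s56gdy_w
    (y' : lvH1 (LevelSys.trivial b.Γ) (tl_Act (s56gdc_Ab M hsm b (s56gdy_rho M hsm b hb)))) :
    groupCohomology (il_Xq q b.L) 2 :=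
  s56gdc_H2e (il_Xq q b.L) ((s56gdy_mt M hsm b hb q t).H2
    (s56gdc_d1b M hsm b (s56gdy_rho M hsm b hb) y'))

theorem s56gdy_w_eq
    (y' : lvH1 (LevelSys.trivial b.Γ) (tl_Act (s56gdc_Ab M hsm b (s56gdy_rho M hsm b hb)))) :
    s56gdy_w M hsm b hb q t y' =
      (tt_coeffMap t 2).hom
        ((tt_resMap (il_D (q : ℕ) b.L) (s56gdc_Rb M hsm b (s56gdy_rho M hsm b hb)) 2).hom
          (s56gdc_z M hsm b (s56gdy_rho M hsm b hb) y')) :=
  s56gdc_H2e_sub (il_D (q : ℕ) b.L) (A := s56gdc_Rb M hsm b (s56gdy_rho M hsm b hb))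
    (X := il_Xq q b.L) t (s56gdy_mt M hsm b hb q t) (fun _ => rfl) (fun _ => rfl) _

theorem s56gdy_w_pprimary
    (y' : lvH1 (LevelSys.trivial b.Γ) (tl_Act (s56gdc_Ab M hsm b (s56gdy_rho M hsm b hb)))) :
    tt_IsPPrimary p (s56gdy_w M hsm b hb q t y') := by
  refine ⟨1, ?_⟩
  rw [pow_one]
  unfold s56gdy_w
  rw [← map_nsmul, ← map_nsmul, s56gdc_nsmul_d1b, map_zero, map_zero]

theorem s56gdy_inflX_w
    (y' : lvH1 (LevelSys.trivial b.Γ) (tl_Act (s56gdc_Ab M hsm b (s56gdy_rho M hsm b hb)))) :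
    s56gd_inflX q (s56gd_Fld.ofLev b) (s56gdy_w M hsm b hb q t y') =
      (s56gd_QX q (s56gd_Fld.ofLev b)).mor.H2 ((s56gdy_mt M hsm b hb q t).H2
        (s56gdc_d1b M hsm b (s56gdy_rho M hsm b hb) y')) := by
  show (s56gd_QX q (s56gd_Fld.ofLev b)).mor.H2
    ((s56gdc_H2e (il_Xq q b.L)).symm (s56gdc_H2e (il_Xq q b.L)
      ((s56gdy_mt M hsm b hb q t).H2 (s56gdc_d1b M hsm b (s56gdy_rho M hsm b hb) y')))) = _
  rw [AddEquiv.symm_apply_apply]

/-- **The local term for an arbitrary `t`**: `B_q(δ⁰(λ ∘ t), loc_q y') = inv_q(t_* res_q δ¹ y')`. -/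
theorem s56gdy_local (I : s56gd_LocInv p q)
    (y' : lvH1 (LevelSys.trivial b.Γ) (tl_Act (s56gdc_Ab M hsm b (s56gdy_rho M hsm b hb)))) :
    s56gd_Bq M hsm q I (s56gd_d0 M hsm q (s56gd_lamt M hsm (s56gd_Fld.ofLev b) hb q t))
      ((s56gdc_morN' M hsm b (s56gdy_rho M hsm b hb) q (s56gdy_hrho M hsm b hb)).H1 y') =
    (s56gd_Pq q (s56gd_Fld.ofLev b) p).invTop
      ((tt_coeffMap t 2).hom
        ((tt_resMap (il_D (q : ℕ) b.L) (s56gdc_Rb M hsm b (s56gdy_rho M hsm b hb)) 2).hom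
          (s56gdc_z M hsm b (s56gdy_rho M hsm b hb) y'))) := by
  rw [s56gd_Bq_spec, ← s56gdy_w_eq]
  have hstar := s56gdy_star_eq M hsm b hb q t y'
  have hw := s56gdy_inflX_w M hsm b hb q t y'
  have hmem : s56gd_inflX q (s56gd_Fld.ofLev b) (s56gdy_w M hsm b hb q t y') ∈
      fd_pPrimary p (lvH2 (tl_levelsLoc q) (tl_locUnits q)) := by
    rw [hw, ← hstar]
    exact s56gd_star_d1_mem M hsm q _ _
  have h := I.spec (s56gd_Fld.ofLev b) (s56gdy_w M hsm b hb q t y')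
    (s56gdy_w_pprimary M hsm b hb q t y') hmem
  refine Eq.trans ?_ h
  congr 1
  exact Subtype.ext (hstar.trans hw.symm)

end

/-- **SEAM [Y2] IS PROVED.** -/
theorem s56gdy_main : s56gd_Y2_stmt := by
  intro p _ M _ hsm I S b hb z hz
  obtain ⟨z', rfl⟩ := (s56gdc_H2e (s56gdc_Rb M hsm b (s56gdy_rho M hsm b hb))).surjective z
  have h0 : ((s56gdc_Eb M hsm b (s56gdy_rho M hsm b hb)).mi (LevelSys.trivial b.Γ)).H2 z' = 0 := by
    apply (s56gdc_H2e (s56gdc_Fb M hsm b (s56gdy_rho M hsm b hb))).injective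
    rw [map_zero, s56gdc_H2e_coeff (s56gdc_iota M hsm b (s56gdy_rho M hsm b hb)) _
      (fun _ => rfl) (fun _ => rfl) z']
    exact hz
  obtain ⟨y', rfl⟩ := ((s56gdc_Eb M hsm b (s56gdy_rho M hsm b hb)).exact_H2A
    (LevelSys.trivial b.Γ) (sl_isSmooth_trivial _) z').1 h0
  refine ⟨(s56gdc_QN' M hsm b (s56gdy_rho M hsm b hb) (s56gdy_hrho M hsm b hb)).mor.H1 y',
    fun q t => ?_⟩
  rw [s56gdc_lvloc_QN']
  exact s56gdy_local M hsm b hb q.1 t (I q.1) y'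

end Fermat.Agent.S56
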